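import Fermat.Agent.S55.G.Rec.Spec2

/-!
# S55 / G / REC, leaf SC (helper174) : small consequences of the KEY specs

* `gcc_nsmul_eq_zero`, `lcc_nsmul_eq_zero` : cup classes with a character of order dividing `n`
  are killed by `n` (from `CupAddSpec`);
* `acts_conj_loc` : transport of the action on roots of unity from `ℚ̄_q` to `ℚ̄`;
* `norm_eq_of_isUniformizer` : two uniformizers have the same norm.
-/

set_option autoImplicit false
set_option linter.style.haveILetI false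
set_option linter.unusedSectionVars false

noncomputable section

namespace Fermat.Agent.S55.G.Rec.H174

open groupCohomology Fermat.Agent.S55.G.Rec

local notation "Qb" => AlgebraicClosure ℚ
local notation "GQ" => (AlgebraicClosure ℚ ≃ₐ[ℚ] AlgebraicClosure ℚ)

/-! ## Characters -/

section Chars

variable {G : Type} [Group G] (ρ : G →* GQ) {n : ℕ}

lemma isLevelConstant₁_one_char : IsLevelConstant₁ ρ (1 : G →* Multiplicative (ZMod n)) :=
  isLevelConstant₁_const ρ (1 : Multiplicative (ZMod n))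

lemma isLevelConstant₁_pow_char {χ : G →* Multiplicative (ZMod n)} (hχ : IsLevelConstant₁ ρ χ)
    (m : ℕ) : IsLevelConstant₁ ρ (χ ^ m : G →* Multiplicative (ZMod n)) :=
  (hχ.comp (fun x => x ^ m) :)

lemma char_pow_self (χ : G →* Multiplicative (ZMod n)) : χ ^ n = 1 := by
  ext σ
  show (χ σ) ^ n = 1
  apply Multiplicative.toAdd.injective
  rw [toAdd_pow, toAdd_one, nsmul_eq_mul, ZMod.natCast_self, zero_mul]

end Chars

/-! ## Cup classes are killed by `n` -/

theorem gcc_one_char (hK2 : CupAddSpec) (U : Subgroup GQ) (n : ℕ) (hn : n ≠ 0) (a : Qbˣ)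
    (ha : GFixed U a) : gcc U n (1 : ↥U →* Multiplicative (ZMod n)) a = 0 := by
  have h := (hK2.1 U n 1 1 a a hn (isLevelConstant₁_one_char _) (isLevelConstant₁_one_char _)
    ha ha).2
  rw [mul_one] at h
  exact left_eq_add.mp h

theorem gcc_pow_char (hK2 : CupAddSpec) (U : Subgroup GQ) (n : ℕ) (hn : n ≠ 0)
    (χ : ↥U →* Multiplicative (ZMod n)) (hχ : IsLevelConstant₁ U.subtype χ) (a : Qbˣ)
    (ha : GFixed U a) (m : ℕ) : gcc U n (χ ^ m) a = m • gcc U n χ a := by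
  induction m with
  | zero => rw [pow_zero, zero_smul]; exact gcc_one_char hK2 U n hn a ha
  | succ m ih =>
    rw [pow_succ, (hK2.1 U n (χ ^ m) χ a a hn (isLevelConstant₁_pow_char _ hχ m) hχ ha ha).2,
      ih, succ_nsmul]

theorem gcc_nsmul_eq_zero (hK2 : CupAddSpec) (U : Subgroup GQ) (n : ℕ) (hn : n ≠ 0)
    (χ : ↥U →* Multiplicative (ZMod n)) (hχ : IsLevelConstant₁ U.subtype χ) (a : Qbˣ)
    (ha : GFixed U a) : n • gcc U n χ a = 0 := by
  rw [← gcc_pow_char hK2 U n hn χ hχ a ha n, char_pow_self, gcc_one_char hK2 U n hn a ha]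

section Local

variable (q : ℕ) [Fact q.Prime]

local notation "Gq" => (PadicAlgCl q ≃ₐ[ℚ_[q]] PadicAlgCl q)

theorem lcc_one_char (hK2 : CupAddSpec) (V : Subgroup Gq) (n : ℕ) (hn : n ≠ 0)
    (a : (PadicAlgCl q)ˣ) (ha : LFixed q V a) :
    lcc q V n (1 : ↥V →* Multiplicative (ZMod n)) a = 0 := by
  have h := (hK2.2 q V n 1 1 a a hn (isLevelConstant₁_one_char _) (isLevelConstant₁_one_char _)
    ha ha).2
  rw [mul_one] at h
  exact left_eq_add.mp h

theorem lcc_pow_char (hK2 : CupAddSpec) (V : Subgroup Gq) (n : ℕ) (hn : n ≠ 0)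
    (χ : ↥V →* Multiplicative (ZMod n)) (hχ : IsLevelConstant₁ (lHom q V) χ)
    (a : (PadicAlgCl q)ˣ) (ha : LFixed q V a) (m : ℕ) :
    lcc q V n (χ ^ m) a = m • lcc q V n χ a := by
  induction m with
  | zero => rw [pow_zero, zero_smul]; exact lcc_one_char q hK2 V n hn a ha
  | succ m ih =>
    rw [pow_succ, (hK2.2 q V n (χ ^ m) χ a a hn (isLevelConstant₁_pow_char _ hχ m) hχ ha ha).2,
      ih, succ_nsmul]

theorem lcc_nsmul_eq_zero (hK2 : CupAddSpec) (V : Subgroup Gq) (n : ℕ) (hn : n ≠ 0)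
    (χ : ↥V →* Multiplicative (ZMod n)) (hχ : IsLevelConstant₁ (lHom q V) χ)
    (a : (PadicAlgCl q)ˣ) (ha : LFixed q V a) : n • lcc q V n χ a = 0 := by
  rw [← lcc_pow_char q hK2 V n hn χ hχ a ha n, char_pow_self, lcc_one_char q hK2 V n hn a ha]

lemma lFixed_one' (V : Subgroup Gq) : LFixed q V 1 := fun τ _ => smul_one τ

lemma lFixed_mul' {V : Subgroup Gq} {a b : (PadicAlgCl q)ˣ} (ha : LFixed q V a)
    (hb : LFixed q V b) : LFixed q V (a * b) :=
  fun τ hτ => by rw [smul_mul', ha τ hτ, hb τ hτ]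

lemma lFixed_pow' {V : Subgroup Gq} {a : (PadicAlgCl q)ˣ} (ha : LFixed q V a) (m : ℕ) :
    LFixed q V (a ^ m) :=
  fun τ hτ => by rw [smul_pow', ha τ hτ]

/-- The local cup class of an `n`-th power vanishes. -/
theorem lcc_pow_self_eq_zero (hK2 : CupAddSpec) (V : Subgroup Gq) (n : ℕ) (hn : n ≠ 0)
    (χ : ↥V →* Multiplicative (ZMod n)) (hχ : IsLevelConstant₁ (lHom q V) χ)
    (b : (PadicAlgCl q)ˣ) (hb : LFixed q V b) : lcc q V n χ (b ^ n) = 0 := by
  have key : ∀ m : ℕ, lcc q V n χ (b ^ m) = m • lcc q V n χ b := by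
    intro m
    induction m with
    | zero =>
      rw [pow_zero, zero_smul]
      have h := (hK2.2 q V n χ χ 1 1 hn hχ hχ (lFixed_one' q V) (lFixed_one' q V)).1
      rw [mul_one] at h
      exact left_eq_add.mp h
    | succ m ih =>
      rw [pow_succ, (hK2.2 q V n χ χ (b ^ m) b hn hχ hχ (lFixed_pow' q hb m) hb).1, ih,
        succ_nsmul]
  rw [key, lcc_nsmul_eq_zero q hK2 V n hn χ hχ b hb]

/-! ## Transport of the action on roots of unity -/

/-- If `τ ∈ G_{ℚ_q}` acts on the `r`-th roots of unity of `ℚ̄_q` by `ζ ↦ ζ ^ m`, then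
`g · loc τ · g⁻¹` acts on the `r`-th roots of unity of `ℚ̄` by `ζ ↦ ζ ^ m`. -/
theorem acts_conj_loc (r m : ℕ) (g : GQ) (τ : Gq)
    (h : ∀ ζ : PadicAlgCl q, ζ ^ r = 1 → τ ζ = ζ ^ m) (ζ : Qb) (hζ : ζ ^ r = 1) :
    (g * localGaloisToGlobal q τ * g⁻¹) ζ = ζ ^ m := by
  have h1 : ((g⁻¹ : GQ) ζ) ^ r = 1 := by rw [← map_pow, hζ, map_one]
  have h2 : (padicEmbedding q ((g⁻¹ : GQ) ζ)) ^ r = 1 := by rw [← map_pow, h1, map_one]
  have h3 : localGaloisToGlobal q τ ((g⁻¹ : GQ) ζ) = ((g⁻¹ : GQ) ζ) ^ m := by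
    apply (padicEmbedding q).toRingHom.injective
    show padicEmbedding q (localGaloisToGlobal q τ ((g⁻¹ : GQ) ζ)) =
      padicEmbedding q (((g⁻¹ : GQ) ζ) ^ m)
    rw [padicEmbedding_localGaloisToGlobal, h _ h2, map_pow]
  show g (localGaloisToGlobal q τ ((g⁻¹ : GQ) ζ)) = ζ ^ m
  rw [h3, map_pow]
  congr 1
  exact AlgEquiv.apply_symm_apply g ζ

/-! ## Uniformizers -/

theorem norm_eq_of_isUniformizer {V : Subgroup Gq} {π π' : PadicAlgCl q}
    (h : IsUniformizer q V π) (h' : IsUniformizer q V π') : ‖π‖ = ‖π'‖ :=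
  le_antisymm (h'.2.2.2 π h.1 h.2.2.1) (h.2.2.2 π' h'.1 h'.2.2.1)

/-- If `a = π ^ k * u = π' ^ j * u'` with uniformizers `π, π'` and units `u, u'` then `k = j`. -/
theorem zpow_exponent_unique {V : Subgroup Gq} {π π' u u' : (PadicAlgCl q)ˣ}
    (h : IsUniformizer q V (π : PadicAlgCl q)) (h' : IsUniformizer q V (π' : PadicAlgCl q))
    (hu : ‖(u : PadicAlgCl q)‖ = 1) (hu' : ‖(u' : PadicAlgCl q)‖ = 1) {k j : ℤ}
    (heq : π ^ k * u = π' ^ j * u') : k = j := by
  have h1 := congrArg (fun x : (PadicAlgCl q)ˣ => ‖(x : PadicAlgCl q)‖) heq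
  simp only [Units.val_mul, Units.val_zpow_eq_zpow_val, norm_mul, norm_zpow, hu, hu',
    mul_one] at h1
  rw [norm_eq_of_isUniformizer q h h'] at h1
  have hpos : 0 < ‖(π' : PadicAlgCl q)‖ := norm_pos_iff.2 h'.2.1
  exact zpow_right_injective₀ hpos (ne_of_lt h'.2.2.1) h1

end Local

end Fermat.Agent.S55.G.Rec.H174
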