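import Fermat.Agent.S55.G.Rec.OrbitNormH934

/-!
# S55 / G / REC, leaf SC (helper174) : finite systems of double-coset representatives exist
-/

set_option autoImplicit false
set_option linter.style.haveILetI false

noncomputable section

namespace Fermat.Agent.S55.G.Rec.H174

open Fermat.Agent.S55.G.Rec

local notation "Qb" => AlgebraicClosure ℚ
local notation "GQ" => (AlgebraicClosure ℚ ≃ₐ[ℚ] AlgebraicClosure ℚ)

/-- If `U` has finite index, there is a finite system of representatives of `U \ G / D`. -/
theorem exists_isDoubleCosetReps {G : Type*} [Group G] (U D : Subgroup G) [Finite (G ⧸ U)] :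
    ∃ R : Finset G, IsDoubleCosetReps U D R := by
  classical
  have hfin : Finite (DoubleCoset.Quotient (U : Set G) D) := by
    let f : G ⧸ U → DoubleCoset.Quotient (U : Set G) D :=
      Quotient.lift (fun g : G => DoubleCoset.mk U D g⁻¹) (by
        intro a b hab
        have hab' : a⁻¹ * b ∈ U := QuotientGroup.leftRel_apply.1 hab
        rw [DoubleCoset.eq]
        refine ⟨b⁻¹ * a, ?_, 1, D.one_mem, by group⟩
        have := U.inv_mem hab'
        simpa using this)
    apply Finite.of_surjective f
    intro x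
    obtain ⟨g, rfl⟩ := Quotient.exists_rep x
    refine ⟨QuotientGroup.mk g⁻¹, ?_⟩
    show DoubleCoset.mk U D (g⁻¹)⁻¹ = _
    rw [inv_inv]
  haveI := Fintype.ofFinite (DoubleCoset.Quotient (U : Set G) D)
  refine ⟨Finset.univ.image (fun x : DoubleCoset.Quotient (U : Set G) D => x.out), fun g => ?_⟩
  refine ⟨(DoubleCoset.mk U D g).out, ⟨Finset.mem_image.2 ⟨_, Finset.mem_univ _, rfl⟩, ?_⟩, ?_⟩
  · exact (DoubleCoset.eq U D (DoubleCoset.mk U D g).out g).1 (DoubleCoset.out_eq' U D _)
  · rintro r ⟨hr, u, hu, d, hd, hg⟩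
    obtain ⟨x, -, rfl⟩ := Finset.mem_image.1 hr
    have : DoubleCoset.mk U D g = x := by
      rw [← DoubleCoset.out_eq' U D x]
      exact ((DoubleCoset.eq U D x.out g).2 ⟨u, hu, d, hd, hg⟩).symm
    rw [this]

/-- Finite systems of representatives of the places of `ℚ̄^U` above `q` exist. -/
theorem exists_placeReps {U : Subgroup GQ} (hU : IsOpenQ U) (q : ℕ) [Fact q.Prime] :
    ∃ R : Finset GQ, IsDoubleCosetReps U (localGaloisToGlobal q).range R := by
  haveI := H934.finite_quotient_of_isOpenQ hU
  exact exists_isDoubleCosetReps U _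

end Fermat.Agent.S55.G.Rec.H174
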