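import Mathlib

/-!
# S55 / G / REC, leaf SC (helper174) : inner automorphisms act trivially on `H²` (cochain level)

For a `2`-cocycle `c` of a group `G` with values in a representation `A` and `u : G`, the
conjugated cocycle `c^u (s, t) = u⁻¹ • c (u s u⁻¹, u t u⁻¹)` is cohomologous to `c`, with the
EXPLICIT primitive `innerH A u c : s ↦ u⁻¹ • (c (u s u⁻¹, u) - c (u, s))`.
-/

set_option autoImplicit false

namespace Fermat.Agent.S55.G.Rec.H174

open groupCohomology

universe v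

variable {k G : Type v} [CommRing k] [Group G] (A : Rep k G)

/-- The explicit homotopy for the inner automorphism `u`. -/
def innerH (u : G) (c : G × G → A) : G → A :=
  fun s => A.ρ u⁻¹ (c (u * s * u⁻¹, u) - c (u, s))

lemma innerH_apply (u : G) (c : G × G → A) (s : G) :
    innerH A u c s = A.ρ u⁻¹ (c (u * s * u⁻¹, u) - c (u, s)) := rfl

/-- `c^u = c + d (innerH u c)`. -/
theorem conj_cocycle_eq (u : G) {c : G × G → A} (hc : c ∈ cocycles₂ A) (s t : G) :
    A.ρ u⁻¹ (c (u * s * u⁻¹, u * t * u⁻¹)) =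
      c (s, t) + (d₁₂ A).hom (innerH A u c) (s, t) := by
  have hcoc := (mem_cocycles₂_iff c).1 hc
  have I1 := hcoc u s t
  have I2 := hcoc (u * s * u⁻¹) u t
  have I3 := hcoc (u * s * u⁻¹) (u * t * u⁻¹) u
  have e1 : u * s * u⁻¹ * u = u * s := by group
  have e2 : u * t * u⁻¹ * u = u * t := by group
  have e3 : u * s * u⁻¹ * (u * t * u⁻¹) = u * (s * t) * u⁻¹ := by group
  rw [e1] at I2
  rw [e2, e3] at I3
  -- rewrite everything as `ρ u⁻¹` of something
  have hρ : ∀ x : A, A.ρ s (A.ρ u⁻¹ x) = A.ρ u⁻¹ (A.ρ (u * s * u⁻¹) x) := by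
    intro x
    rw [← Module.End.mul_apply, ← Module.End.mul_apply, ← map_mul, ← map_mul]
    congr 2
    group
  have hid : ∀ x : A, x = A.ρ u⁻¹ (A.ρ u x) := by
    intro x
    rw [← Module.End.mul_apply, ← map_mul, inv_mul_cancel, map_one, Module.End.one_apply]
  rw [d₁₂_hom_apply]
  simp only [innerH_apply]
  rw [hρ, hid (c (s, t)), ← map_sub, ← map_add, ← map_add]
  congr 1
  -- now a linear identity in `A`
  have I1' : A.ρ u (c (s, t)) = c (u * s, t) + c (u, s) - c (u, s * t) :=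
    eq_sub_of_add_eq I1.symm
  have I2' : A.ρ (u * s * u⁻¹) (c (u, t)) =
      c (u * s, t) + c (u * s * u⁻¹, u) - c (u * s * u⁻¹, u * t) :=
    eq_sub_of_add_eq I2.symm
  have I3' : A.ρ (u * s * u⁻¹) (c (u * t * u⁻¹, u)) =
      c (u * (s * t) * u⁻¹, u) + c (u * s * u⁻¹, u * t * u⁻¹) - c (u * s * u⁻¹, u * t) :=
    eq_sub_of_add_eq I3.symm
  rw [map_sub, I1', I2', I3']
  abel

end Fermat.Agent.S55.G.Rec.H174
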