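import Fermat.Agent.S55.G.Rec.SupportFiniteH181
import Fermat.Agent.S55.G.Rec.SCH174.Inner

/-!
# S55 / G / REC, leaf SC (helper174) : change of double-coset representative

`locBr q g U z = 0 → locBr q (u * g * loc τ₀) U z = 0` for `u ∈ U`, `τ₀ ∈ G_{ℚ_q}`:
local triviality of a global Brauer class at a place does not depend on the representative
`g` of the double coset `U g D_q`.
-/

set_option autoImplicit false
set_option linter.style.haveILetI false

noncomputable section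

namespace Fermat.Agent.S55.G.Rec.H174

open groupCohomology Fermat.Agent.S55.G.Rec

local notation "Qb" => AlgebraicClosure ℚ
local notation "GQ" => (AlgebraicClosure ℚ ≃ₐ[ℚ] AlgebraicClosure ℚ)

/-- The homotopy `innerH` of a level cocycle is level-constant. -/
lemma isLevelConstant₁_innerH {U : Subgroup GQ} (hU : IsOpenQ U) (u : ↥U)
    {c : ↥U × ↥U → gModOn U} (hc : IsLevelConstant₂ U.subtype c) :
    IsLevelConstant₁ U.subtype (innerH (gModOn U) u c) := by
  obtain ⟨F, hF, hN, hle, hconst⟩ := H181.exists_normal_level hU hc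
  refine ⟨F, hF, fun g s hs => ?_⟩
  have hs' : (s : GQ) ∈ F.fixingSubgroup := hs
  have hone : ((1 : ↥U) : GQ) ∈ F.fixingSubgroup := by
    rw [Subgroup.coe_one]; exact one_mem _
  have hconj : ((u * s * u⁻¹ : ↥U) : GQ) ∈ F.fixingSubgroup := by
    have := H181.conj_mem_fixingSubgroup F (u : GQ) hs'
    simpa using this
  simp only [innerH_apply]
  have h1 : c (u * (g * s) * u⁻¹, u) = c (u * g * u⁻¹, u) := by
    have := hconst (u * g * u⁻¹) u (u * s * u⁻¹) 1 hconj hone
    rw [mul_one] at this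
    rw [← this]
    congr 2
    group
  have h2 : c (u, g * s) = c (u, g) := by
    have := hconst u g 1 s hone hs'
    rwa [mul_one] at this
  rw [h1, h2]

variable (q : ℕ) [Fact q.Prime]

local notation "Gq" => (PadicAlgCl q ≃ₐ[ℚ_[q]] PadicAlgCl q)

/-- Conjugation `τ ↦ τ₀ τ τ₀⁻¹` from `locSub q (u * g * loc τ₀) U` to `locSub q g U`. -/
def conjSub (g : GQ) (U : Subgroup GQ) (u : ↥U) (τ₀ : Gq) :
    ↥(locSub q ((u : GQ) * g * localGaloisToGlobal q τ₀) U) →* ↥(locSub q g U) where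
  toFun τ := ⟨τ₀ * τ * τ₀⁻¹, by
    have hτ := τ.2
    rw [mem_locSub] at hτ ⊢
    have : g * localGaloisToGlobal q (τ₀ * τ * τ₀⁻¹) * g⁻¹ =
        (u : GQ)⁻¹ * ((u : GQ) * g * localGaloisToGlobal q τ₀ * localGaloisToGlobal q τ *
          ((u : GQ) * g * localGaloisToGlobal q τ₀)⁻¹) * (u : GQ) := by
      simp only [map_mul, map_inv]
      group
    rw [this]
    exact U.mul_mem (U.mul_mem (U.inv_mem u.2) hτ) u.2⟩
  map_one' := by ext1; simp
  map_mul' a b := by ext1; simp [mul_assoc]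

@[simp] lemma conjSub_coe (g : GQ) (U : Subgroup GQ) (u : ↥U) (τ₀ : Gq)
    (τ : ↥(locSub q ((u : GQ) * g * localGaloisToGlobal q τ₀) U)) :
    ((conjSub q g U u τ₀ τ : ↥(locSub q g U)) : Gq) = τ₀ * τ * τ₀⁻¹ := rfl

/-- `u * locHom_g (κ τ) * u⁻¹ = locHom_{g'} τ`. -/
lemma locHom_conjSub (g : GQ) (U : Subgroup GQ) (u : ↥U) (τ₀ : Gq)
    (τ : ↥(locSub q ((u : GQ) * g * localGaloisToGlobal q τ₀) U)) :
    u * locHom q g U (conjSub q g U u τ₀ τ) * u⁻¹ =
      locHom q ((u : GQ) * g * localGaloisToGlobal q τ₀) U τ := by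
  apply Subtype.ext
  simp only [Subgroup.coe_mul, Subgroup.coe_inv, locHom_coe, conjSub_coe, map_mul, map_inv]
  group

/-- The coefficient identity: `τ₀⁻¹ • ι_q (g⁻¹ (u⁻¹ m)) = ι_q (g'⁻¹ m)`. -/
lemma locPushMul_change (g : GQ) (u : GQ) (τ₀ : Gq) (m : Qbˣ) :
    τ₀⁻¹ • locPushMul q g (u⁻¹ • m) = locPushMul q (u * g * localGaloisToGlobal q τ₀) m := by
  apply Units.ext
  show τ₀⁻¹ (padicEmbedding q (g⁻¹ (u⁻¹ (m : Qb)))) =
    padicEmbedding q ((u * g * localGaloisToGlobal q τ₀)⁻¹ (m : Qb))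
  rw [← padicEmbedding_localGaloisToGlobal]
  congr 1
  simp only [mul_inv_rev, map_inv, AlgEquiv.mul_apply]

/-- The twisted pull-back of `1`-cochains along `conjSub`. -/
def conjCochain₁ (g : GQ) (U : Subgroup GQ) (u : ↥U) (τ₀ : Gq)
    (B : ↥(locSub q g U) → lModOn q (locSub q g U)) :
    ↥(locSub q ((u : GQ) * g * localGaloisToGlobal q τ₀) U) →
      lModOn q (locSub q ((u : GQ) * g * localGaloisToGlobal q τ₀) U) :=
  fun τ => (lMod q).ρ τ₀⁻¹ (B (conjSub q g U u τ₀ τ))

lemma isLevelConstant₁_conjCochain₁ (g : GQ) (U : Subgroup GQ) (u : ↥U) (τ₀ : Gq)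
    {B : ↥(locSub q g U) → lModOn q (locSub q g U)}
    (hB : IsLevelConstant₁ (lHom q (locSub q g U)) B) :
    IsLevelConstant₁ (lHom q (locSub q ((u : GQ) * g * localGaloisToGlobal q τ₀) U))
      (conjCochain₁ q g U u τ₀ B) := by
  obtain ⟨F, hF, h⟩ := hB
  haveI := hF
  haveI : Algebra.IsAlgebraic ℚ Qb := AlgebraicClosure.isAlgebraic ℚ
  haveI : IsAlgClosure ℚ Qb := ⟨inferInstance, inferInstance⟩
  haveI : Normal ℚ Qb := IsAlgClosure.normal ℚ Qb
  have hle : F ≤ IntermediateField.normalClosure ℚ ↥F Qb :=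
    IntermediateField.le_normalClosure _
  haveI : Normal ℚ (IntermediateField.normalClosure ℚ ↥F Qb) := normalClosure.normal ℚ _ Qb
  refine ⟨IntermediateField.normalClosure ℚ ↥F Qb,
    normalClosure.is_finiteDimensional ℚ _ Qb, fun τ σ hσ => ?_⟩
  have hσ' : localGaloisToGlobal q (σ : Gq) ∈
      (IntermediateField.normalClosure ℚ ↥F Qb).fixingSubgroup := hσ
  have hconj := H181.conj_mem_fixingSubgroup _ (localGaloisToGlobal q τ₀) hσ'
  have hmem : lHom q (locSub q g U) (conjSub q g U u τ₀ σ) ∈ F.fixingSubgroup := by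
    apply IntermediateField.fixingSubgroup_antitone hle
    show localGaloisToGlobal q (τ₀ * σ * τ₀⁻¹) ∈ _
    simpa only [map_mul, map_inv] using hconj
  simp only [conjCochain₁, map_mul]
  rw [h _ _ hmem]

/-- **Change of representative, cochain level.** -/
theorem locCochain₂_change {U : Subgroup GQ} (hU : IsOpenQ U) (g : GQ) (u : ↥U) (τ₀ : Gq)
    {c : ↥U × ↥U → gModOn U} (hc : c ∈ levelCocycles₂ U.subtype (gModOn U))
    (h : locCochain₂ q g U c ∈
      levelCoboundaries₂ (lHom q (locSub q g U)) (lModOn q (locSub q g U))) :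
    locCochain₂ q ((u : GQ) * g * localGaloisToGlobal q τ₀) U c ∈
      levelCoboundaries₂ (lHom q (locSub q ((u : GQ) * g * localGaloisToGlobal q τ₀) U))
        (lModOn q (locSub q ((u : GQ) * g * localGaloisToGlobal q τ₀) U)) := by
  obtain ⟨b, hb, hdb⟩ := (mem_levelCoboundaries₂_iff _ _ _).1 h
  set hh : ↥U → gModOn U := innerH (gModOn U) u c with hhdef
  have hhlc : IsLevelConstant₁ U.subtype hh := isLevelConstant₁_innerH hU u hc.2
  set B : ↥(locSub q g U) → lModOn q (locSub q g U) := b + locCochain₁ q g U hh with hBdef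
  have hBlc : IsLevelConstant₁ (lHom q (locSub q g U)) B :=
    hb.add ((isLevelConstant₁_loc q g U hhlc).comp (locPush q g U) :)
  have hdB : (d₁₂ (lModOn q (locSub q g U))).hom B =
      locCochain₂ q g U (c + (d₁₂ (gModOn U)).hom hh) := by
    rw [hBdef, map_add, hdb, map_add]
    congr 1
    exact (cochainsPullPush₂_d₁₂ (locHom q g U) (locPush q g U)
      (locPush_equivariant q g U) hh).symm
  refine (mem_levelCoboundaries₂_iff _ _ _).2
    ⟨conjCochain₁ q g U u τ₀ B, isLevelConstant₁_conjCochain₁ q g U u τ₀ hBlc, ?_⟩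
  funext ⟨τ₁, τ₂⟩
  have key := congrFun hdB (conjSub q g U u τ₀ τ₁, conjSub q g U u τ₀ τ₂)
  rw [d₁₂_hom_apply] at key ⊢
  simp only at key ⊢
  have hρ : ∀ x : lModOn q (locSub q g U),
      (lModOn q (locSub q ((u : GQ) * g * localGaloisToGlobal q τ₀) U)).ρ τ₁
        ((lMod q).ρ τ₀⁻¹ x) =
      (lMod q).ρ τ₀⁻¹ ((lModOn q (locSub q g U)).ρ (conjSub q g U u τ₀ τ₁) x) := by
    intro x
    show Additive.ofMul ((τ₁ : Gq) • (τ₀⁻¹ • (Additive.toMul x : (PadicAlgCl q)ˣ))) =
      Additive.ofMul (τ₀⁻¹ • ((τ₀ * (τ₁ : Gq) * τ₀⁻¹) • (Additive.toMul x : (PadicAlgCl q)ˣ)))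
    rw [← mul_smul, ← mul_smul]
    congr 2
    group
  have hconj := conj_cocycle_eq (gModOn U) u hc.1
    (locHom q g U (conjSub q g U u τ₀ τ₁)) (locHom q g U (conjSub q g U u τ₀ τ₂))
  rw [locHom_conjSub, locHom_conjSub] at hconj
  simp only [conjCochain₁, map_mul]
  rw [hρ, ← map_sub, ← map_add, key]
  show (lMod q).ρ τ₀⁻¹ (locPush q g U ((c + (d₁₂ (gModOn U)).hom hh)
      (locHom q g U (conjSub q g U u τ₀ τ₁), locHom q g U (conjSub q g U u τ₀ τ₂)))) =
    locPush q ((u : GQ) * g * localGaloisToGlobal q τ₀) U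
      (c (locHom q ((u : GQ) * g * localGaloisToGlobal q τ₀) U τ₁,
        locHom q ((u : GQ) * g * localGaloisToGlobal q τ₀) U τ₂))
  rw [Pi.add_apply, ← hconj]
  exact congrArg Additive.ofMul (locPushMul_change q g u τ₀ (Additive.toMul _))

/-- **Change of representative**: local triviality at the place of `g` implies local triviality
at the place of `u * g * loc τ₀`. -/
theorem locBr_change {U : Subgroup GQ} (hU : IsOpenQ U) (g : GQ) (u : ↥U) (τ₀ : Gq) (z : gBr U)
    (hz : locBr q g U z = 0) :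
    locBr q ((u : GQ) * g * localGaloisToGlobal q τ₀) U z = 0 := by
  obtain ⟨c, rfl⟩ := Submodule.mkQ_surjective _ z
  change locBr q g U (continuousH2π U.subtype (gModOn U) c) = 0 at hz
  change locBr q _ U (continuousH2π U.subtype (gModOn U) c) = 0
  rw [locBr_mk, continuousH2π_eq_zero_iff] at hz ⊢
  exact locCochain₂_change q hU g u τ₀ c.2 hz

/-- Local triviality only depends on the double coset `U g D_q`. -/
theorem locBr_eq_zero_of_doubleCoset {U : Subgroup GQ} (hU : IsOpenQ U) {g g' : GQ}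
    (h : ∃ u ∈ U, ∃ d ∈ (localGaloisToGlobal q).range, g' = u * g * d) (z : gBr U)
    (hz : locBr q g U z = 0) : locBr q g' U z = 0 := by
  obtain ⟨u, hu, d, ⟨τ₀, rfl⟩, rfl⟩ := h
  exact locBr_change q hU g ⟨u, hu⟩ τ₀ z hz

end Fermat.Agent.S55.G.Rec.H174
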