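import Fermat.Agent.S55.G.Rec.Spec2
import Fermat.Prelude.Def_ExtCitation_KummerBridge

/-!
# S55 / G / REC, leaf SC (helper174) : the `p`-part of the cyclotomic character mod `r`

For primes `p ≠ r` and `n = p ^ v_p(r - 1)` we construct a character
`chiQ p r : G_ℚ →* Multiplicative (ZMod n)`, cyclotomic mod `r`, level-constant, such that an
element acting on `μ_r` by `ζ ↦ ζ ^ (p ^ f)` is sent to `f • t₀`, where
`addOrderOf t₀ = orderOf (p : ZMod r)` whenever the latter is a power of `p`.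
-/

set_option autoImplicit false
set_option linter.style.haveILetI false
set_option linter.unusedSectionVars false

noncomputable section

namespace Fermat.Agent.S55.G.Rec.H174

open groupCohomology Fermat.Agent.S55.G.Rec

local notation "Qb" => AlgebraicClosure ℚ
local notation "GQ" => (AlgebraicClosure ℚ ≃ₐ[ℚ] AlgebraicClosure ℚ)

/-! ## Abstract cyclic group lemma -/

section Cyclic

variable {G H : Type*} [Group G] [Group H]

/-- A homomorphism from a cyclic group of order `p ^ M * s` (`p ∤ s`) which maps a generator to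
an element of order `p ^ M` preserves the order of elements of `p`-power order. -/
theorem orderOf_map_of_generator {p M s : ℕ} (hp : p.Prime) (hs : p.Coprime s) {γ : G}
    (hγ : ∀ x, x ∈ Subgroup.zpowers γ) (hcard : orderOf γ = p ^ M * s) (ψ : G →* H)
    (hψ : orderOf (ψ γ) = p ^ M) {x : G} {a : ℕ} (hx : orderOf x = p ^ a) :
    orderOf (ψ x) = p ^ a := by
  have hker : ∀ y : G, ψ y = 1 → y ^ s = 1 := by
    intro y hy
    obtain ⟨i, rfl⟩ := Subgroup.mem_zpowers_iff.1 (hγ y)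
    rw [map_zpow] at hy
    have h1 : ((p ^ M : ℕ) : ℤ) ∣ i := by
      rw [← hψ]
      exact orderOf_dvd_iff_zpow_eq_one.2 hy
    obtain ⟨i', rfl⟩ := h1
    rw [← zpow_natCast, ← zpow_mul]
    apply orderOf_dvd_iff_zpow_eq_one.1
    rw [hcard]
    refine ⟨i', ?_⟩
    push_cast
    ring
  have hdvd : orderOf (ψ x) ∣ p ^ a := by
    rw [← hx]
    exact orderOf_map_dvd ψ x
  obtain ⟨b, hb, hbeq⟩ := (Nat.dvd_prime_pow hp).1 hdvd
  have h2 : ψ (x ^ (p ^ b)) = 1 := by
    rw [map_pow, ← hbeq]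
    exact pow_orderOf_eq_one _
  have h3 := hker _ h2
  rw [← pow_mul] at h3
  have h4 : p ^ a ∣ p ^ b * s := by
    rw [← hx]
    exact orderOf_dvd_of_pow_eq_one h3
  have h5 : p ^ a ∣ p ^ b := (Nat.Coprime.pow_left a hs).dvd_of_dvd_mul_right h4
  have h6 : a ≤ b := (Nat.pow_dvd_pow_iff_le_right hp.one_lt).1 h5
  rw [hbeq, le_antisymm hb h6]

end Cyclic

/-! ## The character -/

variable (p r : ℕ) [Fact p.Prime] [Fact r.Prime]

/-- `M = v_p (r - 1)`. -/
def expM : ℕ := (r - 1).factorization p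

/-- `n = p ^ M`, the `p`-part of `r - 1`. -/
def ppart : ℕ := p ^ expM p r

lemma ppart_ne_zero : ppart p r ≠ 0 := pow_ne_zero _ (Fact.out : p.Prime).ne_zero

instance neZero_ppart : NeZero (ppart p r) := ⟨ppart_ne_zero p r⟩

lemma ppart_dvd : ppart p r ∣ r - 1 := Nat.ordProj_dvd (r - 1) p

lemma card_units_zmod : Nat.card (ZMod r)ˣ = r - 1 := by
  rw [Nat.card_eq_fintype_card, ZMod.card_units]

/-- A generator of `(ℤ/r)ˣ`. -/
def gen : (ZMod r)ˣ := Classical.choose (IsCyclic.exists_generator (α := (ZMod r)ˣ))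

lemma gen_spec : ∀ x, x ∈ Subgroup.zpowers (gen r) :=
  Classical.choose_spec (IsCyclic.exists_generator (α := (ZMod r)ˣ))

lemma orderOf_gen : orderOf (gen r) = r - 1 := by
  rw [orderOf_eq_card_of_forall_mem_zpowers (gen_spec r), card_units_zmod]

lemma orderOf_ofAdd_one : orderOf (Multiplicative.ofAdd (1 : ZMod (ppart p r))) = ppart p r := by
  rw [orderOf_ofAdd_eq_addOrderOf, ZMod.addOrderOf_one]

/-- The projection `(ℤ/r)ˣ → ℤ/n` onto the `p`-part. -/
def psi : (ZMod r)ˣ →* Multiplicative (ZMod (ppart p r)) :=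
  monoidHomOfForallMemZpowers (gen_spec r)
    (g' := Multiplicative.ofAdd (1 : ZMod (ppart p r)))
    (by rw [orderOf_ofAdd_one, orderOf_gen]; exact ppart_dvd p r)

lemma psi_gen : psi p r (gen r) = Multiplicative.ofAdd (1 : ZMod (ppart p r)) :=
  monoidHomOfForallMemZpowers_apply_gen _ _

/-- `psi` preserves the order of elements of `p`-power order. -/
theorem orderOf_psi {x : (ZMod r)ˣ} {a : ℕ} (hx : orderOf x = p ^ a) :
    orderOf (psi p r x) = p ^ a := by
  have hp : p.Prime := Fact.out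
  have hr : r.Prime := Fact.out
  have hr1 : r - 1 ≠ 0 := by have := hr.two_le; omega
  refine orderOf_map_of_generator (M := expM p r) (s := (r - 1) / p ^ expM p r) hp
    (Nat.coprime_ordCompl hp hr1) (gen_spec r) ?_ (psi p r) ?_ hx
  · rw [orderOf_gen]
    exact (Nat.ordProj_mul_ordCompl_eq_self (r - 1) p).symm
  · rw [psi_gen, orderOf_ofAdd_one]
    rfl

/-- The `p`-part of the cyclotomic character mod `r`, on `G_ℚ`. -/
def chiQ : GQ →* Multiplicative (ZMod (ppart p r)) :=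
  (psi p r).comp (ExtCitation.cycloChar r)

/-- The `p`-part of the cyclotomic character mod `r`, on `U`. -/
def chiU (U : Subgroup GQ) : ↥U →* Multiplicative (ZMod (ppart p r)) :=
  (chiQ p r).comp U.subtype

lemma chiU_apply (U : Subgroup GQ) (σ : ↥U) : chiU p r U σ = chiQ p r (σ : GQ) := rfl

/-! ## The cyclotomic character and the action on `μ_r` -/

/-- If `σ` acts on `μ_r` by `ζ ↦ ζ ^ m` then `cycloChar r σ = m`. -/
theorem cycloChar_eq_of_acts {σ : GQ} {m : ℕ} (h : ∀ ζ : Qb, ζ ^ r = 1 → σ ζ = ζ ^ m) :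
    ((ExtCitation.cycloChar r σ : (ZMod r)ˣ) : ZMod r) = (m : ZMod r) := by
  have hr : r.Prime := Fact.out
  haveI : NeZero r := ⟨hr.ne_zero⟩
  symm
  refine modularCyclotomicCharacter.unique (L := Qb) (ExtCitation.card_rootsOfUnity_eq_self r)
    (σ : Qb ≃+* Qb) (c := (m : ZMod r)) ?_
  intro t ht
  have ht' : ((t : Qbˣ) : Qb) ^ r = 1 := by
    have := (mem_rootsOfUnity r t).1 ht
    rw [← Units.val_pow_eq_pow_val, this, Units.val_one]
  rw [ZMod.val_natCast]
  have h1 := h (t : Qb) ht'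
  have h2 : ((t : Qbˣ) : Qb) ^ m = ((t : Qbˣ) : Qb) ^ (m % r) := pow_eq_pow_mod m ht'
  rw [← h2]
  exact h1

/-- If `σ` fixes `μ_r` then `cycloChar r σ = 1`. -/
theorem cycloChar_eq_one_of_fixes {σ : GQ} (h : ∀ ζ : Qb, ζ ^ r = 1 → σ ζ = ζ) :
    ExtCitation.cycloChar r σ = 1 := by
  apply Units.ext
  rw [cycloChar_eq_of_acts r (σ := σ) (m := 1) (fun ζ hζ => by rw [h ζ hζ, pow_one])]
  simp

theorem chiQ_eq_one_of_fixes {σ : GQ} (h : ∀ ζ : Qb, ζ ^ r = 1 → σ ζ = ζ) :
    chiQ p r σ = 1 := by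
  show psi p r (ExtCitation.cycloChar r σ) = 1
  rw [cycloChar_eq_one_of_fixes r h, map_one]

/-- `chiU` is cyclotomic mod `r ^ 1`. -/
theorem isCycloChar_chiU (U : Subgroup GQ) : IsCycloChar U (r ^ 1) (chiU p r U) := by
  intro σ hσ
  rw [pow_one] at hσ
  exact chiQ_eq_one_of_fixes p r hσ

/-- `chiU` is level-constant (level `ℚ(μ_r)`). -/
theorem isLevelConstant₁_chiU (U : Subgroup GQ) : IsLevelConstant₁ U.subtype (chiU p r U) := by
  have hr : r.Prime := Fact.out
  haveI : NeZero r := ⟨hr.ne_zero⟩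
  obtain ⟨ζ, hζ⟩ := HasEnoughRootsOfUnity.exists_primitiveRoot Qb r
  have hint : IsIntegral ℚ ζ := (AlgebraicClosure.isAlgebraic ℚ).isAlgebraic ζ |>.isIntegral
  refine ⟨IntermediateField.adjoin ℚ {ζ}, IntermediateField.adjoin.finiteDimensional hint,
    fun g s hs => ?_⟩
  have hs' : (s : GQ) ∈ (IntermediateField.adjoin ℚ {ζ}).fixingSubgroup := hs
  have hsζ : (s : GQ) ζ = ζ :=
    (IntermediateField.mem_fixingSubgroup_iff _ _).1 hs' ζ
      (IntermediateField.mem_adjoin_simple_self ℚ ζ)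
  have hfix : ∀ ξ : Qb, ξ ^ r = 1 → (s : GQ) ξ = ξ := by
    intro ξ hξ
    obtain ⟨i, -, rfl⟩ := hζ.eq_pow_of_pow_eq_one hξ
    rw [map_pow, hsζ]
  rw [map_mul, chiU_apply p r U s, chiQ_eq_one_of_fixes p r hfix, mul_one]

/-- The unit `p mod r`. -/
def pbar (hpr : p ≠ r) : (ZMod r)ˣ :=
  ZMod.unitOfCoprime p
    ((Nat.coprime_primes (Fact.out : p.Prime) (Fact.out : r.Prime)).2 hpr)

lemma coe_pbar (hpr : p ≠ r) : ((pbar p r hpr : (ZMod r)ˣ) : ZMod r) = (p : ZMod r) :=
  ZMod.coe_unitOfCoprime p _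

/-- The value of the character on `p mod r`, additively. -/
def tzero (hpr : p ≠ r) : ZMod (ppart p r) := Multiplicative.toAdd (psi p r (pbar p r hpr))

/-- If `p` has order `p ^ N` modulo `r`, then `tzero` has additive order `p ^ N`. -/
theorem addOrderOf_tzero (hpr : p ≠ r) {N : ℕ} (hN : orderOf (p : ZMod r) = p ^ N) :
    addOrderOf (tzero p r hpr) = p ^ N := by
  have h1 : orderOf (pbar p r hpr) = p ^ N := by
    rw [← orderOf_units, coe_pbar, hN]
  have h2 := orderOf_psi p r h1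
  rw [← h2]
  exact (orderOf_ofAdd_eq_addOrderOf (tzero p r hpr)).symm

/-- An element acting on `μ_r` by `ζ ↦ ζ ^ (p ^ f)` is sent to `f • tzero` by `chiQ`. -/
theorem chiAdd_chiQ_of_acts (hpr : p ≠ r) {σ : GQ} {f : ℕ}
    (h : ∀ ζ : Qb, ζ ^ r = 1 → σ ζ = ζ ^ (p ^ f)) :
    chiAdd (chiQ p r) σ = f • tzero p r hpr := by
  have h1 : ExtCitation.cycloChar r σ = pbar p r hpr ^ f := by
    apply Units.ext
    rw [cycloChar_eq_of_acts r h, Units.val_pow_eq_pow_val, coe_pbar]
    push_cast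
    rfl
  show Multiplicative.toAdd (psi p r (ExtCitation.cycloChar r σ)) = _
  rw [h1, map_pow, toAdd_pow]
  rfl

end Fermat.Agent.S55.G.Rec.H174
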