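import Mathlib

/-!
# S55 / G / REC, leaf SC (helper174) : solving `j · w / n = ξ` in `ℚ/ℤ`

`exists_zsmul_eq` : if `ξ ∈ ℚ/ℤ` is killed by `p ^ k`, `t ∈ ℤ/p^M` has additive order `p ^ N` and
`p ^ (a + 1) ∤ f` with `a + k ≤ N`, then `ξ = j · (f • t).val / p ^ M` for some `j : ℤ`.
-/

set_option autoImplicit false
set_option linter.style.haveILetI false

namespace Fermat.Agent.S55.G.Rec.H174

local instance fact_zero_lt_one_rat : Fact ((0 : ℚ) < 1) := ⟨one_pos⟩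

/-- The additive order of `w.val / n` in `ℚ/ℤ` is the additive order of `w` in `ℤ/n`. -/
theorem addOrderOf_val_div (n : ℕ) [NeZero n] (w : ZMod n) :
    addOrderOf ((((w.val : ℚ) / (n : ℚ) * 1 : ℚ)) : AddCircle (1 : ℚ)) = addOrderOf w := by
  have hn : 0 < n := Nat.pos_of_ne_zero (NeZero.ne n)
  have h1 := AddCircle.gcd_mul_addOrderOf_div_eq (1 : ℚ) w.val hn
  have h2 : addOrderOf w = n / n.gcd w.val := by
    conv_lhs => rw [← ZMod.natCast_zmod_val w]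
    exact ZMod.addOrderOf_coe w.val (NeZero.ne n)
  rw [h2]
  have hg : 0 < w.val.gcd n := Nat.gcd_pos_of_pos_right _ hn
  rw [Nat.gcd_comm n]
  exact (Nat.div_eq_of_eq_mul_right hg h1.symm).symm

/-- Solving `j • θ = ξ` when `ξ` is killed by the order of `θ`, a prime power. -/
theorem exists_zsmul_eq_of_addOrderOf {p b : ℕ} (hp : p.Prime) {θ ξ : AddCircle (1 : ℚ)}
    (hθ : addOrderOf θ = p ^ b) (hξ : p ^ b • ξ = 0) : ∃ j : ℤ, j • θ = ξ := by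
  have hpos : 0 < p ^ b := pow_pos hp.pos b
  obtain ⟨m₁, -, h1⟩ := (AddCircle.nsmul_eq_zero_iff hpos).1 hξ
  obtain ⟨m₂, -, hcop, h2⟩ := (AddCircle.addOrderOf_eq_pos_iff hpos).1 hθ
  -- invert `m₂` modulo `p ^ b`
  let u : (ZMod (p ^ b))ˣ := ZMod.unitOfCoprime m₂ hcop
  haveI : NeZero (p ^ b) := ⟨hpos.ne'⟩
  let j : ℕ := ((m₁ : ZMod (p ^ b)) * ((u⁻¹ : (ZMod (p ^ b))ˣ) : ZMod (p ^ b))).val
  have hj : ((j * m₂ : ℕ) : ZMod (p ^ b)) = (m₁ : ZMod (p ^ b)) := by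
    push_cast
    rw [ZMod.natCast_zmod_val, mul_assoc]
    have : ((u⁻¹ : (ZMod (p ^ b))ˣ) : ZMod (p ^ b)) * (m₂ : ZMod (p ^ b)) = 1 := by
      rw [← ZMod.coe_unitOfCoprime m₂ hcop]
      exact Units.inv_mul u
    rw [this, mul_one]
  have hdvd : ((p ^ b : ℕ) : ℤ) ∣ ((j * m₂ : ℕ) : ℤ) - (m₁ : ℤ) := by
    have := (ZMod.natCast_eq_natCast_iff _ _ _).1 hj
    exact (Nat.modEq_iff_dvd.1 this.symm)
  obtain ⟨z, hz⟩ := hdvd
  refine ⟨(j : ℤ), ?_⟩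
  rw [← h2, ← h1, ← AddCircle.coe_zsmul, ← sub_eq_zero, ← AddCircle.coe_sub,
    AddCircle.coe_eq_zero_iff]
  refine ⟨z, ?_⟩
  have hq : ((p ^ b : ℕ) : ℚ) ≠ 0 := Nat.cast_ne_zero.2 hpos.ne'
  have hz' : ((j : ℚ) * (m₂ : ℚ)) - (m₁ : ℚ) = ((p ^ b : ℕ) : ℚ) * (z : ℚ) := by
    have := congrArg (fun t : ℤ => (t : ℚ)) hz
    simpa using this
  rw [zsmul_eq_mul, zsmul_eq_mul, mul_one, mul_one, mul_one]
  field_simp
  push_cast at hz' ⊢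
  linarith

/-- Solving `j · w.val / n = ξ` in `ℚ/ℤ`. -/
theorem exists_int_mul_val_div_eq (n : ℕ) [NeZero n] {p b k : ℕ} (hp : p.Prime) (w : ZMod n)
    (hw : addOrderOf w = p ^ b) (hkb : k ≤ b) {ξ : AddCircle (1 : ℚ)} (hξ : p ^ k • ξ = 0) :
    ∃ j : ℤ, ((((j : ℚ) * (w.val : ℚ) / (n : ℚ) : ℚ)) : AddCircle (1 : ℚ)) = ξ := by
  have hθ : addOrderOf ((((w.val : ℚ) / (n : ℚ) * 1 : ℚ)) : AddCircle (1 : ℚ)) = p ^ b := by
    rw [addOrderOf_val_div, hw]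
  have hξ' : p ^ b • ξ = 0 := by
    obtain ⟨c, rfl⟩ := Nat.exists_eq_add_of_le hkb
    rw [pow_add, mul_comm, mul_smul, hξ, smul_zero]
  obtain ⟨j, hj⟩ := exists_zsmul_eq_of_addOrderOf hp hθ hξ'
  refine ⟨j, ?_⟩
  rw [← hj, ← AddCircle.coe_zsmul]
  congr 1
  rw [zsmul_eq_mul, mul_one, mul_div_assoc]

/-- The order of a multiple of an element of prime power order. -/
theorem addOrderOf_nsmul_prime_pow {A : Type*} [AddGroup A] {p N k f : ℕ} (hp : p.Prime)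
    {t : A} (ht : addOrderOf t = p ^ N) (hf0 : f ≠ 0) (hf : padicValNat p f + k ≤ N) :
    ∃ b, k ≤ b ∧ addOrderOf (f • t) = p ^ b := by
  haveI : Fact p.Prime := ⟨hp⟩
  have h1 : addOrderOf (f • t) = addOrderOf t / (addOrderOf t).gcd f :=
    addOrderOf_nsmul' t hf0
  rw [ht] at h1
  obtain ⟨a, haN, ha⟩ := (Nat.dvd_prime_pow hp).1 (Nat.gcd_dvd_left (p ^ N) f)
  have ha2 : p ^ a ∣ f := ha ▸ Nat.gcd_dvd_right (p ^ N) f
  have ha3 : a ≤ padicValNat p f := (padicValNat_dvd_iff_le hf0).1 ha2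
  refine ⟨N - a, by omega, ?_⟩
  rw [h1, ha, Nat.pow_div haN hp.pos]

end Fermat.Agent.S55.G.Rec.H174
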