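import Fermat.Agent.S55.G.Rec.ZsigmondyH897
import Fermat.Agent.S55.G.Rec.SCH174.ChangeRep
import Fermat.Agent.S55.G.Rec.SCH174.Reps
import Fermat.Agent.S55.G.Rec.SCH174.Char
import Fermat.Agent.S55.G.Rec.SCH174.Torsion
import Fermat.Agent.S55.G.Rec.SCH174.Helpers

/-!
# S55 / G / REC, leaf SC (helper174) : STEP C, `KillAbovePSpec`

`killAboveP_core` : for `p` odd, from the leaf specs K1, K2, L2, L3, L4, L6, G3 and STEP A,
every `x ∈ Br(K)(p)` differs from a cup class `y = a ∪ δχ_r` with vanishing sum of invariants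
by a class which is locally trivial at all places above `p`.
-/

set_option autoImplicit false
set_option linter.style.haveILetI false
set_option linter.unusedSectionVars false

noncomputable section

namespace Fermat.Agent.S55.G.Rec.H174

open groupCohomology Fermat.Agent.S55.G.Rec

local notation "Qb" => AlgebraicClosure ℚ
local notation "GQ" => (AlgebraicClosure ℚ ≃ₐ[ℚ] AlgebraicClosure ℚ)

/-- **STEP C.** -/
theorem killAboveP_core (I : LocalInvSystem) (p : ℕ) [Fact p.Prime] (hp2 : p ≠ 2)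
    (hK1 : CupLocSpec) (hK2 : CupAddSpec) (hL2 : LocalStructureSpec) (hL3 : UnramCupSpec I)
    (hL4 : CycloFrobSpec) (hL6 : LocalRootSpec) (hG3 : WeakApproxSpec) (hSA : CycloSumSpec I) :
    KillAbovePSpec I p := by
  intro U hU x hx
  obtain ⟨k, hk⟩ := hx
  have hp : p.Prime := Fact.out
  -- places above `p`
  obtain ⟨Rp, hRp⟩ := exists_placeReps hU p
  -- local structure at every `g`
  have hopen : ∀ g : GQ, IsOpenL p (locSub p g U) := fun g => H181.isOpenL_locSub p g hU
  choose f φ π hf hφmem hφ hπ hvπ hdec using fun g : GQ => hL2 p (locSub p g U) (hopen g)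
  -- the auxiliary prime `r`
  obtain ⟨r, hr, hrp, hord, hdvd⟩ := H897.exists_prime_orderOf_eq_prime_pow' p hp
    (k + Rp.sup (fun g => padicValNat p (f g)) + 1) (by omega)
  haveI : Fact r.Prime := ⟨hr⟩
  have hpr : p ≠ r := hrp.symm
  have hNpos : 1 ≤ k + Rp.sup (fun g => padicValNat p (f g)) + 1 := by omega
  have hr2 : r ≠ 2 := by
    have h1 : p ^ (k + Rp.sup (fun g => padicValNat p (f g)) + 1) ≤ r - 1 :=
      Nat.le_of_dvd (by have := hr.two_le; omega) hdvd
    have h2 : p ^ 1 ≤ p ^ (k + Rp.sup (fun g => padicValNat p (f g)) + 1) :=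
      Nat.pow_le_pow_right hp.pos hNpos
    have h3 := hp.two_le
    rw [pow_one] at h2
    omega
  have hprdvd : ¬ p ∣ r := fun h => hpr ((Nat.prime_dvd_prime_iff_eq hp hr).1 h)
  -- the character
  have hn0 : ppart p r ≠ 0 := ppart_ne_zero p r
  have hχlc : IsLevelConstant₁ U.subtype (chiU p r U) := isLevelConstant₁_chiU p r U
  have hχcyc : IsCycloChar U (r ^ 1) (chiU p r U) := isCycloChar_chiU p r U
  have hrn : ¬ r ∣ ppart p r := by
    intro h
    exact hpr ((Nat.prime_dvd_prime_iff_eq hr hp).1 (hr.dvd_of_dvd_pow h)).symm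
  have hodd : Odd (ppart p r) := (hp.odd_of_ne_two hp2).pow
  -- Frobenius elements
  have hFrob : ∀ g : GQ, chiAdd (chiU p r U) (locHom p g U ⟨φ g, hφmem g⟩) =
      f g • tzero p r hpr := by
    intro g
    have hact := (hL4 p r hprdvd).2 (φ g) (f g) (hφ g)
    exact chiAdd_chiQ_of_acts p r hpr (acts_conj_loc p r (p ^ f g) g (φ g) hact)
  -- the local invariants of `x` above `p` are killed by `p ^ k`
  have hξ : ∀ g : GQ, p ^ k • I.inv p (locSub p g U) (locBr p g U x) = 0 := by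
    intro g
    rw [← map_nsmul, ← map_nsmul, hk, map_zero, map_zero]
  -- solving for the valuations
  have hsolve : ∀ g ∈ Rp, ∃ j : ℤ,
      ((((j : ℚ) * ((chiAdd (chiU p r U) (locHom p g U ⟨φ g, hφmem g⟩)).val : ℚ) /
        (ppart p r : ℚ) : ℚ)) : AddCircle (1 : ℚ)) = I.inv p (locSub p g U) (locBr p g U x) := by
    intro g hg
    have hle : padicValNat p (f g) ≤ Rp.sup (fun g => padicValNat p (f g)) :=
      Finset.le_sup (f := fun g => padicValNat p (f g)) hg
    obtain ⟨b, hkb, hb⟩ := addOrderOf_nsmul_prime_pow (k := k) hp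
      (addOrderOf_tzero p r hpr hord) (hf g).1.ne' (by omega)
    rw [hFrob g]
    exact exists_int_mul_val_div_eq (ppart p r) hp _ hb hkb (hξ g)
  choose! j hj using hsolve
  -- weak approximation
  obtain ⟨a, ha, hap, har⟩ := hG3 U hU p r hpr Rp hRp j
  refine ⟨gcc U (ppart p r) (chiU p r U) a, ⟨expM p r, ?_⟩, ?_, ?_⟩
  · -- `y` is killed by `p ^ M`
    exact gcc_nsmul_eq_zero hK2 U (ppart p r) hn0 (chiU p r U) hχlc a ha
  · -- local triviality of `x - y` above `p`
    intro g'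
    obtain ⟨r₀, ⟨hr₀, hrep⟩, -⟩ := hRp g'
    refine locBr_eq_zero_of_doubleCoset p hU hrep _ ?_
    apply I.inv_injective p (locSub p r₀ U) (hopen r₀)
    rw [map_zero, map_sub, map_sub, sub_eq_zero, ← hj r₀ hr₀]
    obtain ⟨⟨hlc', hfix'⟩, heq⟩ := hK1 p r₀ U (ppart p r) (chiU p r U) a hn0 hχlc ha
    rw [heq]
    -- the localised character is unramified
    have hunr : ∀ τ : ↥(locSub p r₀ U),
        IsInertial p (τ : PadicAlgCl p ≃ₐ[ℚ_[p]] PadicAlgCl p) →
        (chiU p r U).comp (locHom p r₀ U) τ = 1 := by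
      intro τ hτ
      have hfixμ := (hL4 p r hprdvd).1 (τ : PadicAlgCl p ≃ₐ[ℚ_[p]] PadicAlgCl p) hτ
      show chiQ p r (r₀ * localGaloisToGlobal p τ * r₀⁻¹) = 1
      apply chiQ_eq_one_of_fixes
      intro ζ hζ
      have := acts_conj_loc p r 1 r₀ (τ : PadicAlgCl p ≃ₐ[ℚ_[p]] PadicAlgCl p)
        (fun ζ' hζ' => by rw [hfixμ ζ' hζ', pow_one]) ζ hζ
      rwa [pow_one] at this
    -- the valuation of `a` at the place `r₀`
    obtain ⟨π', u', hπ', hu', hdec'⟩ := hap r₀ hr₀
    obtain ⟨k', u, hufix, hu, hdecL, hvdeg⟩ := hdec r₀ (locPushMul p r₀ a) hfix'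
    have hkj : k' = j r₀ := zpow_exponent_unique p (hπ r₀) hπ' hu hu' (hdecL.symm.trans hdec')
    rw [hkj] at hvdeg
    have hinv := hL3 p (locSub p r₀ U) (hopen r₀) (ppart p r)
      ((chiU p r U).comp (locHom p r₀ U)) hlc' hunr (f r₀) (hf r₀) ⟨φ r₀, hφmem r₀⟩ (hφ r₀)
      (locPushMul p r₀ a) hfix' (j r₀) hvdeg
    rw [hinv]
    rfl
  · -- the sum of the invariants of `y` vanishes
    intro R hR
    refine hSA U hU r hr2 1 one_pos (ppart p r) hodd (chiU p r U) hχlc hχcyc a ha ?_ R hR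
    intro g
    obtain ⟨⟨hlc', hfix'⟩, heq⟩ := hK1 r g U (ppart p r) (chiU p r U) a hn0 hχlc ha
    rw [heq]
    obtain ⟨b, hb, hba⟩ := hL6 r (locSub r g U) (ppart p r) hrn (locPushMul r g a) hfix' (har g)
    rw [← hba]
    exact lcc_pow_self_eq_zero r hK2 _ _ hn0 _ hlc' b hb

end Fermat.Agent.S55.G.Rec.H174
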